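/-
S37lib / B3 / Equivariant  (helper3)

Intrinsic characterisation of the place reduction map `r` of a reduction datum with equal genus
and orthonormal bases, and its equivariance under semilinear automorphisms.

* `r_eq_of_forall_redF_mem` (uniq): if reduction maps `L(nY - P) ∩ O` into `L_k(nȲ - Q)` for all
  `n`, then `r P = Q`   (`Y = (y)_∞`; uses the lattice lifting lemma `RRlat.exists_lift`).
* `r_smul` : for semilinear automorphisms `g` of `F / L` and `gk` of `Fk / k` with `g O = O`,
  `red ∘ g = gk ∘ red` and `g y = y`:  `r (g • P) = gk • r P`.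
-/
import Fermat.Agent.S18lib.RRlat.Lattice
import Fermat.Agent.S18lib.Setup.DatumFibre
import Fermat.Prelude.Def_AlgebraicCurve_BaseChangeGalois

set_option autoImplicit false

noncomputable section

namespace Fermat.Agent.S37lib.B3

open AlgebraicCurve Fermat.Agent.S18lib

/-! ### Riemann–Roch spaces and semilinear automorphisms -/

section Semilinear

variable {K E : Type*} [Field K] [Field E] [Algebra K E]

theorem smul_mem_riemannRochSpace (g : SemilinearAut K E) {E₀ : Divisor K E} {f : E}
    (hf : f ∈ riemannRochSpace E₀) : g • f ∈ riemannRochSpace (g • E₀) := by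
  rw [mem_riemannRochSpace_iff] at hf ⊢
  intro w
  rcases hf (g⁻¹ • w) with h | h
  · left; rw [h, smul_zero]
  · right
    rw [SemilinearAut.divisor_smul_apply]
    have h1 := SemilinearAut.ord_smul g (g⁻¹ • w) f
    rw [smul_inv_smul] at h1
    rw [h1]
    exact h

theorem smul_zsmul_divisor (g : SemilinearAut K E) (n : ℤ) (E₀ : Divisor K E) :
    g • (n • E₀) = n • (g • E₀) := by
  ext w
  rw [SemilinearAut.divisor_smul_apply, Finsupp.smul_apply, Finsupp.smul_apply,
    SemilinearAut.divisor_smul_apply]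

theorem smul_polesOf [HasPrincipalDivisors K E] (g : SemilinearAut K E) (y : E) :
    g • polesOf (K := K) y = polesOf (K := K) (g • y) := by
  ext w
  rw [SemilinearAut.divisor_smul_apply, polesOf_apply, polesOf_apply]
  have h1 := SemilinearAut.ord_smul g (g⁻¹ • w) y
  rw [smul_inv_smul] at h1
  rw [h1]

end Semilinear

/-! ### strict monotonicity of Riemann–Roch spaces in large degree -/

section Strict

variable {K E : Type*} [Field K] [Field E] [Algebra K E]

theorem exists_mem_not_mem_sub_single {g : ℕ} (hE : IsCurveOfGenus K E g) (E₀ : Divisor K E)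
    (hdeg : 2 * (g : ℤ) - 2 < Divisor.degree E₀ - 1) (Q : Place K E) :
    ∃ η : E, η ∈ riemannRochSpace E₀ ∧ η ∉ riemannRochSpace (E₀ - Finsupp.single Q 1) := by
  classical
  by_contra hcon
  push Not at hcon
  have hle : riemannRochSpace E₀ ≤ riemannRochSpace (E₀ - Finsupp.single Q 1) := hcon
  have := hE.finiteDimensional (E₀ - Finsupp.single Q 1)
  have h1 := hE.riemann_eq E₀ (by linarith)
  have hdeg' : Divisor.degree (E₀ - Finsupp.single Q 1) = Divisor.degree E₀ - 1 := by
    rw [map_sub, Divisor.degree_single, hE.deg_eq_one, Nat.cast_one, mul_one]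
  have h2 := hE.riemann_eq (E₀ - Finsupp.single Q 1) (by rw [hdeg']; exact hdeg)
  rw [hdeg'] at h2
  have h3 := Submodule.finrank_mono hle
  have h4 : (Module.finrank K (riemannRochSpace E₀) : ℤ) ≤
      (Module.finrank K (riemannRochSpace (E₀ - Finsupp.single Q 1)) : ℤ) := by
    exact_mod_cast h3
  rw [h1, h2] at h4
  linarith

end Strict

/-! ### the characterisation of `r` -/

variable {L : Type*} [Field L] {A : ValuationSubring L}
variable {F : Type*} [Field F] [Algebra L F]
variable {Fk : Type*} [Field Fk] [Algebra (IsLocalRing.ResidueField A) Fk]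
variable (D : RedDatum A F Fk)

local notation "k" => IsLocalRing.ResidueField A

/-- `r_* (n Y - P) = n Ȳ - r P` -/
theorem mapDomain_smul_polesOf_sub_single [HasPrincipalDivisors L F] [HasPrincipalDivisors k Fk]
    (hdegpos : ∀ Q : Place k Fk, 0 < Q.deg) {y : F} (hy : D.redF y ≠ 0)
    (hdeg : Divisor.degree (polesOf (K := L) y) = Divisor.degree (polesOf (K := k) (D.redF y)))
    (n : ℕ) (P : Place L F) :
    Finsupp.mapDomain D.r ((n : ℤ) • polesOf (K := L) y - Finsupp.single P 1)
      = (n : ℤ) • polesOf (K := k) (D.redF y) - Finsupp.single (D.r P) 1 := by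
  rw [Finsupp.mapDomain_sub, Finsupp.mapDomain_single, Finsupp.mapDomain_smul,
    D.mapDomain_polesOf hdegpos hy hdeg]

/-- **(uniq)** the intrinsic characterisation of the place reduction map. -/
theorem r_eq_of_forall_redF_mem (hD : D.HasOrthonormalBases) {g : ℕ}
    (hF : IsCurveOfGenus L F g) (hFk : IsCurveOfGenus k Fk g)
    {y : F} (hy : D.redF y ≠ 0)
    (hdeg : haveI := hF.hasPrincipalDivisors; haveI := hFk.hasPrincipalDivisors
      Divisor.degree (polesOf (K := L) y) = Divisor.degree (polesOf (K := k) (D.redF y)))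
    (hpos : haveI := hF.hasPrincipalDivisors; 0 < Divisor.degree (polesOf (K := L) y))
    {P : Place L F} {Q : Place k Fk}
    (h : haveI := hF.hasPrincipalDivisors; haveI := hFk.hasPrincipalDivisors
      ∀ (n : ℕ) (f : F), f ∈ D.O →
        f ∈ riemannRochSpace ((n : ℤ) • polesOf (K := L) y - Finsupp.single P 1) →
        D.redF f ∈ riemannRochSpace ((n : ℤ) • polesOf (K := k) (D.redF y) - Finsupp.single Q 1)) :
    D.r P = Q := by
  classical
  have := hF.hasPrincipalDivisors
  have := hFk.hasPrincipalDivisors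
  have hdegpos : ∀ Q : Place k Fk, 0 < Q.deg := fun Q => by rw [hFk.deg_eq_one]; exact one_pos
  by_contra hne
  -- choose `n` with `n d ≥ 2g + 2`
  set d := Divisor.degree (polesOf (K := L) y) with hd
  set n : ℕ := 2 * g + 2 with hn
  have hnd : 2 * (g : ℤ) + 2 ≤ (n : ℤ) * d := by
    have h1 : (n : ℤ) = 2 * g + 2 := by rw [hn]; push_cast; ring
    have h2 : (0 : ℤ) ≤ 2 * (g : ℤ) + 2 := by positivity
    have h3 : (1 : ℤ) ≤ d := hpos
    nlinarith
  set E₁ : Divisor L F := (n : ℤ) • polesOf (K := L) y - Finsupp.single P 1 with hE₁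
  set Ek : Divisor k Fk := (n : ℤ) • polesOf (K := k) (D.redF y) - Finsupp.single (D.r P) 1 with hEk
  have hmap : Finsupp.mapDomain D.r E₁ = Ek :=
    mapDomain_smul_polesOf_sub_single D hdegpos hy hdeg n P
  have hdegE₁ : Divisor.degree E₁ = (n : ℤ) * d - 1 := by
    rw [hE₁, map_sub, map_zsmul, smul_eq_mul, Divisor.degree_single, hF.deg_eq_one, Nat.cast_one,
      mul_one]
  have hdegEk : Divisor.degree Ek = (n : ℤ) * d - 1 := by
    rw [← hmap, D.degree_mapDomain, hdegE₁]
  obtain ⟨η, hη, hηnot⟩ := exists_mem_not_mem_sub_single hFk Ek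
    (by rw [hdegEk]; linarith) Q
  -- lift `η`
  obtain ⟨f, ⟨hfE, hfO⟩, hfη⟩ := RRlat.exists_lift D hD hF hFk E₁ (by rw [hdegE₁]; linarith) η
    (by rw [hmap]; exact hη)
  have hηQ := h n f hfO hfE
  rw [hfη] at hηQ
  apply hηnot
  rw [mem_riemannRochSpace_iff] at hη hηQ ⊢
  intro w
  rcases hη w with h0 | h1
  · exact Or.inl h0
  rcases hηQ w with h0 | h2
  · exact Or.inl h0
  right
  simp only [hEk, Finsupp.sub_apply, Finsupp.smul_apply, Finsupp.single_apply] at h1 h2 ⊢
  by_cases hw1 : D.r P = w
  · have hw2 : ¬ Q = w := fun hQw => hne (hw1.trans hQw.symm)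
    rw [if_pos hw1] at h1 ⊢
    rw [if_neg hw2]
    linarith
  · rw [if_neg hw1] at h1 ⊢
    by_cases hw2 : Q = w
    · rw [if_pos hw2] at h2 ⊢
      linarith
    · rw [if_neg hw2]
      linarith

/-- **Equivariance of the place reduction map** under a compatible pair of semilinear
automorphisms fixing `y`. -/
theorem r_smul (hD : D.HasOrthonormalBases) {g : ℕ}
    (hF : IsCurveOfGenus L F g) (hFk : IsCurveOfGenus k Fk g)
    {y : F} (hyO : y ∈ D.O) (hy : D.redF y ≠ 0)
    (hdeg : haveI := hF.hasPrincipalDivisors; haveI := hFk.hasPrincipalDivisors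
      Divisor.degree (polesOf (K := L) y) = Divisor.degree (polesOf (K := k) (D.redF y)))
    (hpos : haveI := hF.hasPrincipalDivisors; 0 < Divisor.degree (polesOf (K := L) y))
    (σ : SemilinearAut L F) (σk : SemilinearAut k Fk)
    (hO : ∀ f : F, σ • f ∈ D.O ↔ f ∈ D.O)
    (hred : ∀ f : F, f ∈ D.O → D.redF (σ • f) = σk • D.redF f)
    (hσy : σ • y = y) (P : Place L F) :
    D.r (σ • P) = σk • D.r P := by
  classical
  have := hF.hasPrincipalDivisors
  have := hFk.hasPrincipalDivisors
  have hdegpos : ∀ Q : Place k Fk, 0 < Q.deg := fun Q => by rw [hFk.deg_eq_one]; exact one_pos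
  have hσky : σk • D.redF y = D.redF y := by rw [← hred y hyO, hσy]
  refine r_eq_of_forall_redF_mem D hD hF hFk hy hdeg hpos ?_
  intro n f hfO hf
  -- `f₀ := σ⁻¹ f`
  set f₀ : F := σ⁻¹ • f with hf₀
  have hff₀ : σ • f₀ = f := by rw [hf₀, smul_inv_smul]
  have hf₀O : f₀ ∈ D.O := (hO f₀).1 (by rw [hff₀]; exact hfO)
  have hσinvy : σ⁻¹ • y = y := by
    conv_lhs => rw [← hσy]
    rw [inv_smul_smul]
  have hf₀E : f₀ ∈ riemannRochSpace ((n : ℤ) • polesOf (K := L) y - Finsupp.single P 1) := by
    have h1 := smul_mem_riemannRochSpace σ⁻¹ hf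
    rw [smul_sub, smul_zsmul_divisor, smul_polesOf, hσinvy, SemilinearAut.smul_single,
      inv_smul_smul] at h1
    exact h1
  have h2 := D.redF_mem_riemannRochSpace hf₀E hf₀O
  rw [mapDomain_smul_polesOf_sub_single D hdegpos hy hdeg n P] at h2
  have h3 := smul_mem_riemannRochSpace σk h2
  rw [smul_sub, smul_zsmul_divisor, smul_polesOf, hσky, SemilinearAut.smul_single,
    ← hred f₀ hf₀O, hff₀] at h3
  exact h3

end Fermat.Agent.S37lib.B3
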