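/-
S37lib / B3 / Package  (helper9)

Final packaging of block (B): **`ReductionInputsModL A N` from a place map with the conservation
law for the unconditional Gauss datum `V.gaussDatum N A hℓN hA`** (the output shape of (B2) at the
auxiliary level + descent), using `V.gaussDatum_red_coeffMap` (integral Laurent series are in `O`
with the coefficientwise reduction) and `B1.principalGeneratedByIntegral`.

* `isPlaceReductionModL_of_gauss` : `(r, hdeg, hcons)` ⇒ `IsPlaceReductionModL A N r`;
* `reductionInputsModL_of_gauss`  : ⇒ `ReductionInputsModL A N`;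
* `reductionInputsModL_of_redDatum` : the same from a `RedDatum` whose `O`, `red` are those of
  `V.gaussDatum`.
-/
import Mathlib
import Fermat.Agent.S37lib.B1.PGI
import Fermat.Agent.S18lib.V.GaussU.Datum

set_option autoImplicit false
set_option linter.unusedSectionVars false

noncomputable section

namespace Fermat.Agent.S37lib.B3

open AlgebraicCurve ModularCurve
open Fermat.Agent.S18lib

variable (N : ℕ) [NeZero N] {ℓ : ℕ} [Fact ℓ.Prime]
variable (A : ValuationSubring (AlgebraicClosure ℚ))

local notation "Qb" => AlgebraicClosure ℚ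

/-- a place map satisfying the conservation law for the Gauss datum is a place reduction in the
sense of the Prelude. -/
theorem isPlaceReductionModL_of_gauss (hℓN : ¬ ℓ ∣ N) (hA : A.LiesOverPrime ℓ)
    (r : Place Qb (FBar N) → Place (kRes A) (FRes A N))
    (hdeg : ∀ P, (r P).deg = P.deg)
    (hcons : ∀ y : (V.gaussDatum N A hℓN hA).O, (V.gaussDatum N A hℓN hA).red y ≠ 0 →
      ∀ D : Divisor Qb (FBar N), (∀ P, D P = P.ord (y : FBar N)) →
        ∀ Q, Finsupp.mapDomain r D Q = Q.ord ((V.gaussDatum N A hℓN hA).red y)) :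
    IsPlaceReductionModL A N r := by
  refine ⟨hdeg, ?_⟩
  intro y hy hyk hne D hD Q
  obtain ⟨hO, hred⟩ := V.gaussDatum_red_coeffMap N A hℓN hA y hy hyk
  have h1 := hcons ⟨_, hO⟩ (by
    rw [hred]
    intro h0
    exact hne (congrArg Subtype.val h0)) D hD Q
  rw [h1, hred]

/-- **`ReductionInputsModL A N`** from a place map with the conservation law for `V.gaussDatum`. -/
theorem reductionInputsModL_of_gauss (hℓN : ¬ ℓ ∣ N) (hA : A.LiesOverPrime ℓ)
    (r : Place Qb (FBar N) → Place (kRes A) (FRes A N))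
    (hdeg : ∀ P, (r P).deg = P.deg)
    (hcons : ∀ y : (V.gaussDatum N A hℓN hA).O, (V.gaussDatum N A hℓN hA).red y ≠ 0 →
      ∀ D : Divisor Qb (FBar N), (∀ P, D P = P.ord (y : FBar N)) →
        ∀ Q, Finsupp.mapDomain r D Q = Q.ord ((V.gaussDatum N A hℓN hA).red y)) :
    ReductionInputsModL A N :=
  ⟨r, isPlaceReductionModL_of_gauss N A hℓN hA r hdeg hcons,
    B1.principalGeneratedByIntegral N A hℓN hA⟩

/-- the same from a `RedDatum` with the `O` and `red` of the unconditional Gauss datum. -/
theorem reductionInputsModL_of_redDatum (hℓN : ¬ ℓ ∣ N) (hA : A.LiesOverPrime ℓ)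
    (D : RedDatum A (FBar N) (FRes A N))
    (hO : ∀ x : FBar N, x ∈ D.O ↔ x ∈ (V.gaussDatum N A hℓN hA).O)
    (hred : ∀ (x : FBar N) (hx : x ∈ D.O) (hx' : x ∈ (V.gaussDatum N A hℓN hA).O),
      D.red ⟨x, hx⟩ = (V.gaussDatum N A hℓN hA).red ⟨x, hx'⟩) :
    ReductionInputsModL A N := by
  refine reductionInputsModL_of_gauss N A hℓN hA D.r D.deg_r ?_
  intro y hy E hE Q
  have hyD : (y : FBar N) ∈ D.O := (hO _).2 y.2
  have h1 := D.mapDomain_div ⟨(y : FBar N), hyD⟩ (by rw [hred _ hyD y.2]; exact hy) E hE Q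
  rw [h1, hred _ hyD y.2]

end Fermat.Agent.S37lib.B3
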