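/-
S37lib / B3 / InstBase  (helper9)

Instance-layer ingredients of the descent `N' → N` (`N ∣ N'`, `ℓ ∤ N'`) for the tower
`FBar N ⊆ FBar N'`, `FRes A N ⊆ FRes A N'` (level algebras `V.levelAlgebraL/K` of
`S18lib/V/GaussU/LevelAlg`):

* `isSeparable_levelK`, `isSeparable_levelL` : both extensions are separable;
* `fundamentalIdentity_levelL`, `fundamentalIdentity_levelK` : the Prelude class
  `FundamentalIdentity` on both sides (helper6's `Tower.fundamentalIdentity`; needs the curve
  structure of the TOP field only);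
* `exists_isCurveOfGenus_FRes` : `FRes A N` is a curve over `k` (RRgen, unconditional);
* `isPlaceReductionModL_of_toGaussDatum`, `reductionInputsModL_of_toGaussDatum` : a `RedDatum`
  extending `V.gaussDatum N` gives `IsPlaceReductionModL` / `ReductionInputsModL`.

Already landed and used as is by `B3/Inst.lean`: `V.level_hO_gauss`, `V.level_hred_gauss`,
`V.level_hdeg'`, `V.gaussDatum_isFrameFamily_jF`, `V.degree_polesOf_jF_eq`,
`V.gaussDatum_redF_jF`, `V.gaussDatum_hasOrthonormalBases`, `B1.exists_aux_level`.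
-/
import Mathlib
import Fermat.Agent.S18lib.Mod23.NormZeroInst
import Fermat.Agent.S37lib.Tower.SumRam
import Fermat.Agent.S37lib.B3.Package

set_option autoImplicit false
set_option linter.style.haveILetI false
set_option linter.unusedSectionVars false

noncomputable section

namespace Fermat.Agent.S37lib.B3

open AlgebraicCurve ModularCurve IntermediateField Polynomial Module
open Fermat.Agent.ProgramR Fermat.Agent.S18lib Fermat.Agent.S18lib.RRgen.Canonical
  Fermat.Agent.S18lib.Mod23

variable {N N' : ℕ} [NeZero N] [NeZero N'] {ℓ : ℕ} [Fact ℓ.Prime]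
variable (A : ValuationSubring (AlgebraicClosure ℚ))

local notation "Qb" => AlgebraicClosure ℚ
local notation "kA" => IsLocalRing.ResidueField A

/-- `FRes A N' / FRes A N` is separable (`N ∣ N'`, `ℓ ∤ N'`). -/
theorem isSeparable_levelK (hNN' : N ∣ N') (hℓN' : ¬ ℓ ∣ N') (hA : A.LiesOverPrime ℓ) :
    @Algebra.IsSeparable (FRes A N) (FRes A N') _ _ (V.levelAlgebraK A hNN') := by
  haveI : Algebra.IsSeparable (kRes A)⟮Gink.jK A N'⟯ (FRes A N') :=
    Gink.isSeparable_jK A N' hA hℓN'
  have hxk : Transcendental kA (Gink.jK A N) := Gink.transcendental_jK A N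
  have hxk' : Transcendental kA (Gink.jK A N') := Gink.transcendental_jK A N'
  letI := V.levelAlgebraK (N := N) (N' := N') A hNN'
  letI := V.levelModuleK (N := N) (N' := N') A hNN'
  haveI : IsScalarTower kA (FRes A N) (FRes A N') := V.isScalarTower_levelK A hNN'
  have hjK : algebraMap (FRes A N) (FRes A N') (Gink.jK A N) = Gink.jK A N' :=
    V.algebraMap_levelK_jK A hNN'
  letI := polyAlgebra kA (Gink.jK A N)
  letI := ratFuncAlgebra kA hxk
  letI := polyAlgebra kA (Gink.jK A N')
  letI := ratFuncAlgebra kA hxk'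
  haveI := isSeparable_ratFunc kA hxk'
  haveI := isScalarTower_ratFunc_tower kA hxk hxk' hjK
  exact Algebra.isSeparable_tower_top_of_isSeparable (RatFunc kA) (FRes A N) (FRes A N')

/-- `FBar N' / FBar N` is separable (characteristic zero). -/
theorem isSeparable_levelL (hNN' : N ∣ N') :
    @Algebra.IsSeparable (FBar N) (FBar N') _ _ (V.levelAlgebraL hNN') := by
  letI := V.levelAlgebraL (N := N) (N' := N') hNN'
  letI := V.levelModuleL (N := N) (N' := N') hNN'
  haveI : FiniteDimensional (FBar N) (FBar N') := V.finiteDimensional_levelL hNN'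
  haveI : CharZero (FBar N) := charZero_of_injective_algebraMap (algebraMap Qb (FBar N)).injective
  exact Algebra.IsAlgebraic.isSeparable_of_perfectField

/-- the fundamental identity `∑_{P' ∣ P} e(P'|P) deg P' = [FBar N' : FBar N] deg P`. -/
theorem fundamentalIdentity_levelL (hNN' : N ∣ N') {g' : ℕ}
    (hF' : IsCurveOfGenus Qb (FBar N') g') :
    letI := V.levelAlgebraL (N := N) (N' := N') hNN'
    letI := V.levelModuleL (N := N) (N' := N') hNN'
    haveI : IsScalarTower Qb (FBar N) (FBar N') := V.isScalarTower_levelL hNN'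
    haveI : FiniteDimensional (FBar N) (FBar N') := V.finiteDimensional_levelL hNN'
    haveI : HasPrincipalDivisors Qb (FBar N') := hF'.hasPrincipalDivisors
    FundamentalIdentity Qb (FBar N) (FBar N') := by
  letI := V.levelAlgebraL (N := N) (N' := N') hNN'
  letI := V.levelModuleL (N := N) (N' := N') hNN'
  haveI : IsScalarTower Qb (FBar N) (FBar N') := V.isScalarTower_levelL hNN'
  haveI : FiniteDimensional (FBar N) (FBar N') := V.finiteDimensional_levelL hNN'
  haveI : HasPrincipalDivisors Qb (FBar N') := hF'.hasPrincipalDivisors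
  haveI : Algebra.IsSeparable (FBar N) (FBar N') := isSeparable_levelL hNN'
  exact Tower.fundamentalIdentity (fun w => hF'.deg_eq_one w)

/-- the fundamental identity `∑_{Q' ∣ Q} e(Q'|Q) deg Q' = [FRes A N' : FRes A N] deg Q`
(characteristic `ℓ`). -/
theorem fundamentalIdentity_levelK (hNN' : N ∣ N') (hℓN' : ¬ ℓ ∣ N') (hA : A.LiesOverPrime ℓ)
    {g' : ℕ} (hFk' : IsCurveOfGenus kA (FRes A N') g') :
    letI := V.levelAlgebraK (N := N) (N' := N') A hNN'
    letI := V.levelModuleK (N := N) (N' := N') A hNN'
    haveI : IsScalarTower kA (FRes A N) (FRes A N') := V.isScalarTower_levelK A hNN'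
    haveI : FiniteDimensional (FRes A N) (FRes A N') := V.finiteDimensional_levelK A hNN' hℓN' hA
    haveI : HasPrincipalDivisors kA (FRes A N') := hFk'.hasPrincipalDivisors
    FundamentalIdentity kA (FRes A N) (FRes A N') := by
  letI := V.levelAlgebraK (N := N) (N' := N') A hNN'
  letI := V.levelModuleK (N := N) (N' := N') A hNN'
  haveI : IsScalarTower kA (FRes A N) (FRes A N') := V.isScalarTower_levelK A hNN'
  haveI : FiniteDimensional (FRes A N) (FRes A N') := V.finiteDimensional_levelK A hNN' hℓN' hA
  haveI : HasPrincipalDivisors kA (FRes A N') := hFk'.hasPrincipalDivisors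
  haveI : Algebra.IsSeparable (FRes A N) (FRes A N') := isSeparable_levelK A hNN' hℓN' hA
  exact Tower.fundamentalIdentity (fun w => hFk'.deg_eq_one w)

/-- the curve structure of `FRes A N` (RRgen, unconditional; no genus information). -/
theorem exists_isCurveOfGenus_FRes (N : ℕ) [NeZero N] (hℓN : ¬ ℓ ∣ N) (hA : A.LiesOverPrime ℓ) :
    ∃ gk : ℕ, IsCurveOfGenus kA (FRes A N) gk := by
  haveI : Algebra.IsSeparable (kRes A)⟮Gink.jK A N⟯ (FRes A N) := Gink.isSeparable_jK A N hA hℓN
  haveI : IsAlgClosed kA := Gink.isAlgClosed_residueField A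
  exact ⟨_, isCurveOfGenus_genusOf kA (Gink.transcendental_jK A N)⟩

/-- a `RedDatum` extending the unconditional Gauss datum has a place reduction `r` in the
Prelude sense. -/
theorem isPlaceReductionModL_of_toGaussDatum (N : ℕ) [NeZero N] (hℓN : ¬ ℓ ∣ N)
    (hA : A.LiesOverPrime ℓ) (D : RedDatum A (FBar N) (FRes A N))
    (hD : D.toGaussDatum = V.gaussDatum N A hℓN hA) : IsPlaceReductionModL A N D.r := by
  refine isPlaceReductionModL_of_gauss N A hℓN hA D.r D.deg_r ?_
  rw [← hD]
  exact fun y hy E hE Q => D.mapDomain_div y hy E hE Q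

/-- ... hence the reduction inputs of level `N`. -/
theorem reductionInputsModL_of_toGaussDatum (N : ℕ) [NeZero N] (hℓN : ¬ ℓ ∣ N)
    (hA : A.LiesOverPrime ℓ) (D : RedDatum A (FBar N) (FRes A N))
    (hD : D.toGaussDatum = V.gaussDatum N A hℓN hA) : ReductionInputsModL A N :=
  ⟨D.r, isPlaceReductionModL_of_toGaussDatum A N hℓN hA D hD,
    B1.principalGeneratedByIntegral N A hℓN hA⟩

end Fermat.Agent.S37lib.B3
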