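/-
S37lib / B3 / Inst  (helper9)

**Block (B3), instance layer: existence of the place reduction at EVERY level `N` prime to `ℓ`.**

`exists_redDatum` : a `RedDatum A (FBar N) (FRes A N)` extending the unconditional Gauss datum
`V.gaussDatum N A hℓN hA`, obtained from
* (B1) `B1.exists_aux_level` : an auxiliary level `N ∣ N'`, `ℓ ∤ N'`, `4 ∣ N'` or `9 ∣ N'`, with
  `g(FBar N') = g(FRes A N')`;
* (B2) at level `N'` (helper2): Gauss datum + frame + equal genus ⇒ reduction datum `D'`;
* (B3a) abstract descent `N' → N` (helper1);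
* the instance layer `B3/InstBase.lean` + landed `V.level_*`.
`reductionInputsModL : ReductionInputsModL A N` — the Prelude structure, UNCONDITIONALLY.

WIRING: `B2.exists_redDatum` (helper2, `S37lib/Red/Main.lean`) and `B3.exists_redDatum_of_descent`
(helper1, `S37lib/B3/DescentTower.lean`, on top of `B3/Descent.lean` and helper6's
`Tower.pushforwardNormFormula`).  SORRY-FREE.
-/
import Mathlib
import Fermat.Agent.S37lib.B1.GenusAux
import Fermat.Agent.S37lib.B3.InstBase
import Fermat.Agent.S37lib.Red.Main
import Fermat.Agent.S37lib.B3.DescentTower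

set_option autoImplicit false
set_option linter.style.haveILetI false
set_option linter.unusedSectionVars false

noncomputable section

namespace Fermat.Agent.S37lib.B3

open AlgebraicCurve ModularCurve IntermediateField Polynomial Module
open Fermat.Agent.ProgramR Fermat.Agent.S18lib

variable (N : ℕ) [NeZero N] {ℓ : ℕ} [Fact ℓ.Prime]
variable (A : ValuationSubring (AlgebraicClosure ℚ))

local notation "Qb" => AlgebraicClosure ℚ
local notation "kA" => IsLocalRing.ResidueField A

/-- **existence of the reduction datum at level `N`** (any `N` prime to `ℓ`). -/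
theorem exists_redDatum (hℓN : ¬ ℓ ∣ N) (hA : A.LiesOverPrime ℓ) :
    ∃ D : RedDatum A (FBar N) (FRes A N), D.toGaussDatum = V.gaussDatum N A hℓN hA := by
  obtain ⟨N', hN', hNN', hℓN', -, g', hF', hFk'⟩ := B1.exists_aux_level N A hℓN hA
  haveI : IsAlgClosed kA := Gink.isAlgClosed_residueField A
  haveI : Infinite kA := IsAlgClosed.instInfinite
  obtain ⟨g, hF, -⟩ := Gin0.exists_isCurveOfGenus_FBar N
  obtain ⟨gk, hFk⟩ := exists_isCurveOfGenus_FRes A N hℓN hA
  haveI := hF.hasPrincipalDivisors
  haveI := hFk.hasPrincipalDivisors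
  haveI := hF'.hasPrincipalDivisors
  haveI := hFk'.hasPrincipalDivisors
  -- (B2) at the auxiliary level
  obtain ⟨D', hD'⟩ := B2.exists_redDatum (V.gaussDatum N' A hℓN' hA)
    (V.gaussDatum_isFrameFamily_jF N' A hℓN' hA) (Gin0.transcendental_jF N') hF' hFk'
    (V.degree_polesOf_jF_eq N' A hℓN' hA)
  -- the tower
  letI := V.levelAlgebraL (N := N) (N' := N') hNN'
  letI := V.levelModuleL (N := N) (N' := N') hNN'
  letI := V.levelAlgebraK (N := N) (N' := N') A hNN'
  letI := V.levelModuleK (N := N) (N' := N') A hNN'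
  haveI : IsScalarTower Qb (FBar N) (FBar N') := V.isScalarTower_levelL hNN'
  haveI : IsScalarTower kA (FRes A N) (FRes A N') := V.isScalarTower_levelK A hNN'
  haveI : FiniteDimensional (FBar N) (FBar N') := V.finiteDimensional_levelL hNN'
  haveI : FiniteDimensional (FRes A N) (FRes A N') := V.finiteDimensional_levelK A hNN' hℓN' hA
  haveI : FundamentalIdentity Qb (FBar N) (FBar N') := fundamentalIdentity_levelL hNN' hF'
  haveI : FundamentalIdentity kA (FRes A N) (FRes A N') :=
    fundamentalIdentity_levelK A hNN' hℓN' hA hFk'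
  have hjL : algebraMap (FBar N) (FBar N') (Gin0.jF N) = Gin0.jF N' := V.algebraMap_levelL_jF hNN'
  have hDO : D'.O = (V.gaussDatum N' A hℓN' hA).O := by rw [← hD']; rfl
  have hDred : ∀ x, D'.redF x = (V.gaussDatum N' A hℓN' hA).redF x := by
    intro x; rw [← hD']; rfl
  -- (B3a) descent
  obtain ⟨D, hD, -⟩ := exists_redDatum_of_descent (V.gaussDatum N A hℓN hA) D'
    (by
      have := V.gaussDatum_hasOrthonormalBases N' A hℓN' hA
      rw [← hD'] at this
      exact this)
    (fun x => by rw [hDO]; exact V.level_hO_gauss A hNN' hℓN' hA x)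
    (fun x _ => by rw [hDred]; exact V.level_hred_gauss A hNN' hℓN' hA x)
    (V.level_hdeg' A hNN' hℓN' hA) hF hFk hF' hFk'
    (Gin0.jF N) (V.jF_mem_gaussDatum_O N A hℓN hA) (Gin0.transcendental_jF N)
    (by rw [V.gaussDatum_redF_jF]; exact Gink.transcendental_jK A N)
    (by rw [hjL, hDred]; exact V.degree_polesOf_jF_eq N' A hℓN' hA)
  exact ⟨D, hD⟩

/-- **the reduction inputs of level `N`, unconditionally** (`ℓ ∤ N`, `A` over `ℓ`). -/
theorem reductionInputsModL (hℓN : ¬ ℓ ∣ N) (hA : A.LiesOverPrime ℓ) : ReductionInputsModL A N := by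
  obtain ⟨D, hD⟩ := exists_redDatum N A hℓN hA
  exact reductionInputsModL_of_toGaussDatum A N hℓN hA D hD

end Fermat.Agent.S37lib.B3
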