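/-
S37lib / B3 / Unique  (helper3)

**Uniqueness of the place reduction map.**

* `r_eq_of_same_reduction` (abstract): two reduction data with the same Gauss ring and the same
  reduction map, equal genus and orthonormal bases, have the same place map `r`
  (`red (L(E) ∩ O) = L_k(r₁_* E) = L_k(r₂_* E)` in large degree).
* `datumOf` : the reduction datum of level `N` attached to an EXPLICIT place reduction `r`
  (`V.datum` uses `placeReductionModL h = h.choose`).
* `exists_genus_level` : the genus equality at level `N`, given reduction inputs (from S18lib).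
* `placeReduction_unique` : `IsPlaceReductionModL A N r₁ → IsPlaceReductionModL A N r₂ → r₁ = r₂`
  (given `PrincipalGeneratedByIntegral`, which is unconditional: helper1's
  `B3.principalGeneratedByIntegral_U`).
-/
import Fermat.Agent.S37lib.B3.Equivariant
import Fermat.Agent.S18lib.Weak.Level
import Fermat.Agent.S18lib.G.TwoThree
import Fermat.Agent.S18lib.Mod23.WildInput

set_option autoImplicit false

noncomputable section

namespace Fermat.Agent.S37lib.B3

open AlgebraicCurve ModularCurve Fermat.Agent.S18lib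

/-! ### abstract uniqueness -/

section Abstract

variable {L : Type*} [Field L] {A : ValuationSubring L}
variable {F : Type*} [Field F] [Algebra L F]
variable {Fk : Type*} [Field Fk] [Algebra (IsLocalRing.ResidueField A) Fk]

local notation "k" => IsLocalRing.ResidueField A

/-- two reduction data with the same `O` and `red` have the same place map -/
theorem r_eq_of_same_reduction (D₁ D₂ : RedDatum A F Fk) (hO : ∀ f : F, f ∈ D₁.O → f ∈ D₂.O)
    (hred : ∀ f : F, D₁.redF f = D₂.redF f) (hD : D₁.HasOrthonormalBases) {g : ℕ}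
    (hF : IsCurveOfGenus L F g) (hFk : IsCurveOfGenus k Fk g)
    {y : F} (hy : D₁.redF y ≠ 0)
    (hdeg : haveI := hF.hasPrincipalDivisors; haveI := hFk.hasPrincipalDivisors
      Divisor.degree (polesOf (K := L) y) = Divisor.degree (polesOf (K := k) (D₁.redF y)))
    (hpos : haveI := hF.hasPrincipalDivisors; 0 < Divisor.degree (polesOf (K := L) y)) :
    D₁.r = D₂.r := by
  have := hF.hasPrincipalDivisors
  have := hFk.hasPrincipalDivisors
  have hdegpos : ∀ Q : Place k Fk, 0 < Q.deg := fun Q => by rw [hFk.deg_eq_one]; exact one_pos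
  funext P
  refine r_eq_of_forall_redF_mem D₁ hD hF hFk hy hdeg hpos ?_
  intro n f hfO hf
  have h1 := D₂.redF_mem_riemannRochSpace hf (hO f hfO)
  have hy2 : D₂.redF y ≠ 0 := by rw [← hred]; exact hy
  have hdeg2 : Divisor.degree (polesOf (K := L) y)
      = Divisor.degree (polesOf (K := k) (D₂.redF y)) := by rw [← hred]; exact hdeg
  rw [mapDomain_smul_polesOf_sub_single D₂ hdegpos hy2 hdeg2 n P] at h1
  rw [hred f, hred y]
  exact h1

end Abstract

/-! ### the modular instance -/

section Modular

variable (N : ℕ) [NeZero N] {ℓ : ℕ} [Fact ℓ.Prime]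
variable (A : ValuationSubring (AlgebraicClosure ℚ))

local notation "Qb" => AlgebraicClosure ℚ

/-- the reduction datum of level `N` attached to an explicit place reduction `r` -/
def datumOf (hℓN : ¬ ℓ ∣ N) (hA : A.LiesOverPrime ℓ)
    (r : Place Qb (FBar N) → Place (kRes A) (FRes A N)) (hr : IsPlaceReductionModL A N r) :
    ModDatum N A where
  O := (V.gaussDatum N A hℓN hA).O
  algebraMap_mem_iff := (V.gaussDatum N A hℓN hA).algebraMap_mem_iff
  red := (V.gaussDatum N A hℓN hA).red
  red_surjective := (V.gaussDatum N A hℓN hA).red_surjective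
  red_algebraMap := (V.gaussDatum N A hℓN hA).red_algebraMap
  exists_const_mul_isUnit := (V.gaussDatum N A hℓN hA).exists_const_mul_isUnit
  r := r
  deg_r := hr.1
  mapDomain_div := by
    rintro ⟨y, a, b, hy⟩ hred D hD Q
    have hval : (V.gaussDatum N A hℓN hA).red ⟨y, a, b, hy⟩ = V.elemK a / V.elemK b :=
      V.gaussDatum_red_apply N A hℓN hA _ hy
    have ha : V.elemK a ≠ 0 := by
      intro h0
      apply hred
      rw [hval, h0, zero_div]
    rw [hval]
    exact V.mapDomain_div_aux hr hy ha D hD Q

theorem datumOf_r (hℓN : ¬ ℓ ∣ N) (hA : A.LiesOverPrime ℓ)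
    (r : Place Qb (FBar N) → Place (kRes A) (FRes A N)) (hr : IsPlaceReductionModL A N r) :
    (datumOf N A hℓN hA r hr).r = r := rfl

theorem datumOf_toGaussDatum (hℓN : ¬ ℓ ∣ N) (hA : A.LiesOverPrime ℓ)
    (r : Place Qb (FBar N) → Place (kRes A) (FRes A N)) (hr : IsPlaceReductionModL A N r) :
    (datumOf N A hℓN hA r hr).toGaussDatum = V.gaussDatum N A hℓN hA := rfl

theorem datumOf_hasOrthonormalBases (hℓN : ¬ ℓ ∣ N) (hA : A.LiesOverPrime ℓ)
    (r : Place Qb (FBar N) → Place (kRes A) (FRes A N)) (hr : IsPlaceReductionModL A N r) :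
    (datumOf N A hℓN hA r hr).HasOrthonormalBases :=
  V.gaussDatum_hasOrthonormalBases N A hℓN hA

/-- the genus equality at level `N`, given reduction inputs (S18lib: tame for `ℓ ≥ 5`, wild input
through the auxiliary levels `4N`, `9N` for `ℓ = 2, 3`) -/
theorem exists_genus_level (hℓN : ¬ ℓ ∣ N) (hA : A.LiesOverPrime ℓ)
    (h : ReductionInputsModL A N) :
    ∃ g : ℕ, IsCurveOfGenus Qb (FBar N) g ∧ IsCurveOfGenus (kRes A) (FRes A N) g := by
  refine G.exists_genus_of_forall_wildInput N A hℓN hA h fun h5 => ?_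
  have hℓ : ℓ.Prime := Fact.out
  have h23 : ℓ = 2 ∨ ℓ = 3 := by
    have h2 := hℓ.two_le
    interval_cases ℓ
    · exact Or.inl rfl
    · exact Or.inr rfl
    · exact absurd hℓ (by norm_num)
  exact Mod23.wildInput N A hℓN hA h h23

/-- **uniqueness of the place reduction map at level `N`** -/
theorem placeReduction_unique (hℓN : ¬ ℓ ∣ N) (hA : A.LiesOverPrime ℓ)
    (hgen : PrincipalGeneratedByIntegral A (IsLocalRing.residue A) N)
    (r₁ r₂ : Place Qb (FBar N) → Place (kRes A) (FRes A N))
    (hr₁ : IsPlaceReductionModL A N r₁) (hr₂ : IsPlaceReductionModL A N r₂) : r₁ = r₂ := by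
  obtain ⟨g, hF, hFk⟩ := exists_genus_level N A hℓN hA ⟨r₁, hr₁, hgen⟩
  have := hF.hasPrincipalDivisors
  have := hFk.hasPrincipalDivisors
  have hyk : (V.gaussDatum N A hℓN hA).redF (Gin0.jF N) ≠ 0 := by
    rw [V.gaussDatum_redF_jF]
    intro h0
    have := Gink.transcendental_jK A N
    rw [h0] at this
    exact this ⟨Polynomial.X, Polynomial.X_ne_zero, by simp⟩
  exact r_eq_of_same_reduction (datumOf N A hℓN hA r₁ hr₁) (datumOf N A hℓN hA r₂ hr₂)
    (fun f hf => hf) (fun f => rfl) (datumOf_hasOrthonormalBases N A hℓN hA r₁ hr₁) hF hFk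
    hyk (V.degree_polesOf_jF_eq N A hℓN hA) (GaussDatum.degree_polesOf_pos hF (Gin0.transcendental_jF N))

/-- in particular the chosen reduction `placeReductionModL h` is any given one -/
theorem placeReductionModL_eq (hℓN : ¬ ℓ ∣ N) (hA : A.LiesOverPrime ℓ)
    (h : ReductionInputsModL A N)
    (r : Place Qb (FBar N) → Place (kRes A) (FRes A N)) (hr : IsPlaceReductionModL A N r) :
    placeReductionModL h = r :=
  placeReduction_unique N A hℓN hA h.choose_spec.2 _ _ (isPlaceReductionModL_placeReductionModL h) hr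

end Modular

end Fermat.Agent.S37lib.B3
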