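/-
S37lib / B3 / PullPush  (helper1)

For a finite extension `F'/F` of function fields with all places of degree one and the fundamental
identity: `mapRestrict ∘ pullback = [F' : F] • id` on divisors, and the `ord`-dictionary
`ord_w (f) = e(w) · ord_{w|F} (f)` in divisor form.  Only Prelude vocabulary.
-/
import Mathlib
import Fermat.Prelude.Def_AlgebraicCurve_DivisorPushPull

set_option autoImplicit false
set_option linter.unusedSectionVars false

noncomputable section

namespace Fermat.Agent.S37lib.B3

open AlgebraicCurve

variable {K F F' : Type*} [Field K] [Field F] [Field F']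
  [Algebra K F] [Algebra K F'] [Algebra F F'] [IsScalarTower K F F']
  [Algebra.IsIntegral F F'] [HasPrincipalDivisors K F']

/-- `Divisor.mapRestrict` is `Finsupp.mapDomain` along `restrict`. -/
theorem mapRestrict_eq_mapDomain (D : Divisor K F') :
    Divisor.mapRestrict F D = Finsupp.mapDomain (fun w : Place K F' => w.restrict F) D := by
  induction D using Finsupp.induction with
  | zero => simp
  | single_add w n D _ _ ih =>
    rw [map_add, ih, Finsupp.mapDomain_add, Divisor.mapRestrict_single, Finsupp.mapDomain_single]

/-- sum of the ramification indices over a fibre (all degrees one) -/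
theorem sum_ramificationIndex_fiber [FundamentalIdentity K F F']
    (hdegF : ∀ v : Place K F, v.deg = 1) (hdegF' : ∀ w : Place K F', w.deg = 1) (v : Place K F) :
    ∑ w ∈ v.fiber F', (w.ramificationIndex F : ℤ) = (Module.finrank F F' : ℤ) := by
  have h := FundamentalIdentity.sum_ramificationIndex_mul_deg (K := K) (F := F) (F' := F') v
  rw [hdegF v] at h
  simp only [hdegF', Nat.cast_one, mul_one] at h
  exact h

/-- `mapRestrict ∘ pullback = [F' : F]` -/
theorem mapRestrict_pullback [FundamentalIdentity K F F']
    (hdegF : ∀ v : Place K F, v.deg = 1) (hdegF' : ∀ w : Place K F', w.deg = 1)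
    (E : Divisor K F) :
    Divisor.mapRestrict F (Divisor.pullback F' E) = (Module.finrank F F' : ℤ) • E := by
  induction E using Finsupp.induction with
  | zero => simp
  | single_add v n E _ _ ih =>
    rw [map_add, map_add, ih, smul_add]
    congr 1
    rw [Divisor.pullback_single, map_sum]
    have h1 : ∀ w ∈ v.fiber F', Divisor.mapRestrict F
        (Finsupp.single w (n * (w.ramificationIndex F : ℤ))) =
          Finsupp.single v (n * (w.ramificationIndex F : ℤ)) := by
      intro w hw
      rw [Divisor.mapRestrict_single, Place.mem_fiber.mp hw]
    rw [Finset.sum_congr rfl h1, ← Finsupp.single_finset_sum, ← Finset.mul_sum,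
      sum_ramificationIndex_fiber hdegF hdegF' v, Finsupp.smul_single, smul_eq_mul, mul_comm]

/-- fibres are nonempty -/
theorem exists_restrict_eq [FundamentalIdentity K F F'] [FiniteDimensional F F']
    (hdegF : ∀ v : Place K F, v.deg = 1) (hdegF' : ∀ w : Place K F', w.deg = 1) (v : Place K F) :
    ∃ w : Place K F', w.restrict F = v := by
  by_contra hne
  push Not at hne
  have hempty : v.fiber F' = ∅ := by
    ext w
    simp only [Place.mem_fiber, Finset.notMem_empty, iff_false]
    exact hne w
  have h := sum_ramificationIndex_fiber (K := K) (F := F) (F' := F') hdegF hdegF' v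
  rw [hempty, Finset.sum_empty] at h
  have hpos : 0 < Module.finrank F F' := Module.finrank_pos
  omega

end Fermat.Agent.S37lib.B3
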