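/-
S37lib / B3 / Descent  (helper1)

Abstract descent of a reduction datum along a finite extension `F' / F` (resp. `Fk' / Fk`):
from a full `RedDatum` on the big fields `F' / Fk'` (with orthonormal bases and equal genus, so that
the lifting lemma `RRlat.exists_lift` is available) and a `GaussDatum` on the small fields
`F / Fk` compatible with it, construct the place-reduction map `r` of `F / Fk` with
`r (P' ∣ F) = (r' P') ∣ Fk` and prove conservation `r_* div y = div ȳ`.
-/
import Mathlib
import Fermat.Agent.S18lib.RRlat.Lattice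
import Fermat.Agent.S18lib.Setup.DatumFibre
import Fermat.Agent.S18lib.Norm.OfGauss
import Fermat.Agent.S18lib.Cech.CurveBasics
import Fermat.Agent.S37lib.B3.PullPush

set_option autoImplicit false
set_option linter.unusedSectionVars false
set_option linter.style.haveILetI false

noncomputable section

namespace Fermat.Agent.S37lib.B3

open AlgebraicCurve Fermat.Agent.S18lib Fermat.Agent.ProgramR

/-! ### generic lemmas on one function field -/

section OneField

variable {K F : Type*} [Field K] [Field F] [Algebra K F]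

/-- at most one constant `c` makes `ψ - c` vanish at a given place; so over an infinite constant
field there is `c` such that `ψ - c` vanishes at neither of two given places. -/
theorem exists_const_ord_le_zero [Infinite K] (ψ : F) (Q₁ Q₂ : Place K F) :
    ∃ c : K, Q₁.ord (ψ - algebraMap K F c) ≤ 0 ∧ Q₂.ord (ψ - algebraMap K F c) ≤ 0 := by
  have hsub : ∀ Q : Place K F, {c : K | 0 < Q.ord (ψ - algebraMap K F c)}.Subsingleton := by
    intro Q c₁ h₁ c₂ h₂
    by_contra hne
    have h₁' : 1 ≤ Q.ord (ψ - algebraMap K F c₁) := h₁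
    have h₂' : 1 ≤ Q.ord (-(ψ - algebraMap K F c₂)) := by rw [Cech.ord_neg]; exact h₂
    have h := Cech.ord_add_ge Q (Or.inr h₁') (Or.inr h₂')
    have heq : ψ - algebraMap K F c₁ + -(ψ - algebraMap K F c₂) = algebraMap K F (c₂ - c₁) := by
      rw [map_sub]; ring
    rw [heq, Cech.ord_const] at h
    rcases h with h | h
    · rw [map_eq_zero_iff _ (algebraMap K F).injective, sub_eq_zero] at h
      exact hne h.symm
    · omega
  have hfin : ({c : K | 0 < Q₁.ord (ψ - algebraMap K F c)} ∪
      {c : K | 0 < Q₂.ord (ψ - algebraMap K F c)}).Finite :=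
    (hsub Q₁).finite.union (hsub Q₂).finite
  obtain ⟨c, hc⟩ := hfin.exists_notMem
  refine ⟨c, ?_, ?_⟩
  · by_contra h
    push Not at h
    exact hc (Or.inl h)
  · by_contra h
    push Not at h
    exact hc (Or.inr h)

/-- value of a regular function at a place of degree one -/
theorem exists_value (v : Place K F) (hv : v.deg = 1) {y : F} (hy : 0 ≤ v.ord y) :
    ∃ c : K, y - algebraMap K F c = 0 ∨ 0 < v.ord (y - algebraMap K F c) := by
  obtain ⟨c, hc⟩ := Cech.exists_value_of_deg_eq_one v hv ((FF.mem_iff_ord_nonneg v y).2 hy)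
  refine ⟨c, ?_⟩
  rcases hc with hc | hc
  · exact Or.inl (sub_eq_zero.2 hc)
  · exact Or.inr (by omega)

variable [HasPrincipalDivisors K F]

theorem degree_zerosOf_eq_degree_polesOf (ψ : F) :
    Divisor.degree (zerosOf (K := K) ψ) = Divisor.degree (polesOf (K := K) ψ) := by
  have h := congrArg Divisor.degree (zerosOf_sub_polesOf (K := K) ψ)
  rw [map_sub, degree_divOf] at h
  linarith

/-- a non-constant function has a pole -/
theorem degree_polesOf_pos_of_nonconst {g : ℕ} (hF : IsCurveOfGenus K F g) {y : F}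
    (hy : ∀ c : K, y ≠ algebraMap K F c) : 0 < Divisor.degree (polesOf (K := K) y) := by
  classical
  have hnn := polesOf_nonneg (K := K) y
  have hnni : ∀ P, 0 ≤ polesOf (K := K) y P := fun P => Finsupp.le_def.1 hnn P
  have hge : 0 ≤ Divisor.degree (polesOf (K := K) y) := Cech.degree_nonneg_of_nonneg hnni
  rcases hge.lt_or_eq with h | h
  · exact h
  exfalso
  have h0 := Cech.eq_zero_of_nonneg_of_degree_eq_zero
    (fun P => by rw [hF.deg_eq_one P]; exact Nat.one_pos) hnni h.symm
  have hmem : y ∈ riemannRochSpace (0 : Divisor K F) := by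
    rw [mem_riemannRochSpace_iff]
    intro P
    right
    have := congrArg (fun E : Divisor K F => E P) h0
    simp only [polesOf_apply, Finsupp.zero_apply] at this
    have h1 : -P.ord y ≤ 0 := by
      rw [← this]; exact le_max_left _ _
    simp only [Finsupp.zero_apply, neg_zero]
    linarith
  rw [hF.riemannRochSpace_zero] at hmem
  obtain ⟨c, rfl⟩ := (Algebra.mem_bot).1 hmem
  exact hy c rfl

/-- a non-constant function has a zero -/
theorem degree_zerosOf_pos_of_nonconst {g : ℕ} (hF : IsCurveOfGenus K F g) {y : F}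
    (hy : ∀ c : K, y ≠ algebraMap K F c) : 0 < Divisor.degree (zerosOf (K := K) y) := by
  rw [degree_zerosOf_eq_degree_polesOf]
  exact degree_polesOf_pos_of_nonconst hF hy

omit [HasPrincipalDivisors K F] in
/-- a function separating two places, with poles bounded by `n Z`, `Z` a positive divisor avoiding
the two places -/
theorem exists_separating {g : ℕ} (hF : IsCurveOfGenus K F g) {Z : Divisor K F}
    (hZdeg : 0 < Divisor.degree Z) {Q₁ Q₂ : Place K F} (hne : Q₁ ≠ Q₂) (h1 : Z Q₁ = 0)
    (h2 : Z Q₂ = 0) {n : ℕ} (hn : 2 * g < n) :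
    ∃ φ : F, φ ≠ 0 ∧ (∀ Q : Place K F, -((n : ℤ) * Z Q) ≤ Q.ord φ) ∧ 0 < Q₁.ord φ ∧
      Q₂.ord φ = 0 := by
  set E : Divisor K F := (n : ℤ) • Z with hE
  have hEa : ∀ Q, E Q = (n : ℤ) * Z Q := fun Q => by rw [hE, Finsupp.smul_apply, smul_eq_mul]
  have hdegE : Divisor.degree E = n * Divisor.degree Z := by rw [hE, map_zsmul, smul_eq_mul]
  have hnd : (n : ℤ) ≤ n * Divisor.degree Z := by nlinarith
  have hd1 := Cech.degree_Dv E Q₁ Q₂ (-1) 0 (hF.deg_eq_one _) (hF.deg_eq_one _)
  have hd2 := Cech.degree_Dv E Q₁ Q₂ (-1) (-1) (hF.deg_eq_one _) (hF.deg_eq_one _)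
  have hle : riemannRochSpace (Cech.Dv E Q₁ Q₂ (-1) (-1)) ≤
      riemannRochSpace (Cech.Dv E Q₁ Q₂ (-1) 0) :=
    Cech.rr_mono (Cech.Dv_le_Dv E _ _ le_rfl (by omega))
  have hne' : riemannRochSpace (Cech.Dv E Q₁ Q₂ (-1) (-1)) ≠
      riemannRochSpace (Cech.Dv E Q₁ Q₂ (-1) 0) := by
    intro heq
    have e1 := hF.riemann_eq (Cech.Dv E Q₁ Q₂ (-1) (-1)) (by rw [hd2, hdegE]; omega)
    have e2 := hF.riemann_eq (Cech.Dv E Q₁ Q₂ (-1) 0) (by rw [hd1, hdegE]; omega)
    rw [heq, e2, hd1, hd2] at e1
    omega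
  obtain ⟨φ, hφ, hφ'⟩ := SetLike.exists_of_lt (lt_of_le_of_ne hle hne')
  have hφ0 : φ ≠ 0 := by
    rintro rfl
    exact hφ' (Submodule.zero_mem _)
  rw [Cech.mem_rr_of_ne hφ0] at hφ hφ'
  push Not at hφ'
  obtain ⟨Q, hQ⟩ := hφ'
  have hQ2 : Q = Q₂ := by
    by_contra hQ2
    have := hφ Q
    by_cases hQ1 : Q = Q₁
    · subst hQ1
      rw [Cech.Dv_apply_fst E hne] at this hQ
      omega
    · rw [Cech.Dv_apply_of_ne E _ _ _ _ hQ1 hQ2] at this hQ
      omega
  subst hQ2
  refine ⟨φ, hφ0, fun Q' => ?_, ?_, ?_⟩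
  · have := hφ Q'
    classical
    rw [Cech.Dv_apply, hEa] at this
    split_ifs at this <;> omega
  · have := hφ Q₁
    rw [Cech.Dv_apply_fst E hne, hEa, h1] at this
    omega
  · have := hφ Q
    rw [Cech.Dv_apply_snd E hne, hEa, h2] at this
    rw [Cech.Dv_apply_snd E hne, hEa, h2] at hQ
    omega

end OneField

/-! ### generic lemmas on a tower `F' / F` -/

section Tower

variable {K F F' : Type*} [Field K] [Field F] [Field F']
  [Algebra K F] [Algebra K F'] [Algebra F F'] [IsScalarTower K F F'] [Algebra.IsIntegral F F']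

theorem ramificationIndex_pos_int (w : Place K F') : (0 : ℤ) < (w.ramificationIndex F : ℤ) := by
  exact_mod_cast w.ramificationIndex_pos (F := F)

theorem ord_algebraMap_pos_iff (w : Place K F') (x : F) :
    0 < w.ord (algebraMap F F' x) ↔ 0 < (w.restrict F).ord x := by
  rw [w.ord_restrict x]
  have he := ramificationIndex_pos_int (F := F) w
  constructor
  · intro h
    by_contra hle
    push Not at hle
    nlinarith
  · intro h
    exact mul_pos he h

theorem ord_algebraMap_neg_iff (w : Place K F') (x : F) :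
    w.ord (algebraMap F F' x) < 0 ↔ (w.restrict F).ord x < 0 := by
  rw [w.ord_restrict x]
  have he := ramificationIndex_pos_int (F := F) w
  constructor
  · intro h
    by_contra hle
    push Not at hle
    nlinarith
  · intro h
    nlinarith

/-- the norm of a function regular at all places above `v` is regular at `v` -/
theorem ord_norm_nonneg [Module.Finite F F'] [HasPrincipalDivisors K F']
    (hNF : Divisor.PushforwardNormFormula K F F') {f' : F'} (v : Place K F)
    (h : ∀ w : Place K F', w.restrict F = v → 0 ≤ w.ord f') : 0 ≤ v.ord (Algebra.norm F f') := by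
  classical
  rcases eq_or_ne f' 0 with rfl | hf'
  · simp
  rw [← hNF f' hf' (divOf (K := K) f') (divOf_apply' f') v, Divisor.pushforward_apply]
  refine Finset.sum_nonneg fun w _ => ?_
  split_ifs with hw
  · rw [divOf_apply']
    exact mul_nonneg (h w hw) (Int.natCast_nonneg _)
  · exact le_rfl

end Tower

/-! ### a pointwise consequence of conservation -/

section Conservation

variable {L : Type*} [Field L] {A : ValuationSubring L}
variable {F : Type*} [Field F] [Algebra L F]
variable {Fk : Type*} [Field Fk] [Algebra (IsLocalRing.ResidueField A) Fk]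
variable [HasPrincipalDivisors L F] [HasPrincipalDivisors (IsLocalRing.ResidueField A) Fk]

/-- if `h` vanishes at `P` and no pole of `h` reduces to `r P`, then `h̄` vanishes at `r P` -/
theorem ord_r_pos_of_no_pole (D : RedDatum A F Fk) {h : F} (hne : D.redF h ≠ 0) {P : Place L F}
    (hP : 0 < P.ord h) (hpole : ∀ w : Place L F, w.ord h < 0 → D.r w ≠ D.r P) :
    0 < (D.r P).ord (D.redF h) := by
  classical
  have hcons := congrArg (fun E => E (D.r P)) (D.mapDomain_divOf hne)
  simp only [divOf_apply'] at hcons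
  rw [mapDomain_apply_eq_sum] at hcons
  have hnn : ∀ w ∈ (divOf (K := L) h).support,
      0 ≤ (if D.r w = D.r P then divOf (K := L) h w else 0) := by
    intro w _
    split_ifs with hw
    · rw [divOf_apply']
      by_contra hlt
      push Not at hlt
      exact hpole w hlt hw
    · exact le_rfl
  have hmem : P ∈ (divOf (K := L) h).support := by
    rw [Finsupp.mem_support_iff, divOf_apply']
    omega
  have := Finset.single_le_sum hnn hmem
  rw [if_pos rfl, divOf_apply', hcons] at this
  omega

end Conservation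

/-! ### the descent -/

section Descent

variable {L : Type*} [Field L] {A : ValuationSubring L}
variable {F F' : Type*} [Field F] [Field F'] [Algebra L F] [Algebra L F'] [Algebra F F']
  [IsScalarTower L F F'] [FiniteDimensional F F']
variable {Fk Fk' : Type*} [Field Fk] [Field Fk'] [Algebra (IsLocalRing.ResidueField A) Fk]
  [Algebra (IsLocalRing.ResidueField A) Fk'] [Algebra Fk Fk']
  [IsScalarTower (IsLocalRing.ResidueField A) Fk Fk'] [FiniteDimensional Fk Fk']

local notation "k" => IsLocalRing.ResidueField A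

/-- norms of integral elements are integral and reduce to the norm of the reduction -/
theorem norm_mem_and_redF (G : GaussDatum A F Fk) (D' : RedDatum A F' Fk')
    (hO : ∀ x : F, algebraMap F F' x ∈ D'.O ↔ x ∈ G.O)
    (hred : ∀ x ∈ G.O, D'.redF (algebraMap F F' x) = algebraMap Fk Fk' (G.redF x))
    (hfr : Module.finrank F F' = Module.finrank Fk Fk') {f' : F'} (hf' : f' ∈ D'.O) :
    Algebra.norm F f' ∈ G.O ∧ G.redF (Algebra.norm F f') = Algebra.norm Fk (D'.redF f') := by
  have hbase : ∀ q : F, algebraMap F F' q ∈ D'.toGaussDatum.O →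
      ∃ qb : Fk, D'.toGaussDatum.redF (algebraMap F F' q) = algebraMap Fk Fk' qb :=
    fun q hq => ⟨G.redF q, hred q ((hO q).1 hq)⟩
  set S := Norm.RedExt.ofGaussDatum D'.toGaussDatum hbase hfr with hS
  obtain ⟨h, hh⟩ := S.exists_norm_mem ⟨f', hf'⟩
  have hmem : Algebra.norm F f' ∈ G.O := (hO _).1 h
  refine ⟨hmem, ?_⟩
  apply (algebraMap Fk Fk').injective
  rw [← hred _ hmem]
  have h1 := Norm.RedExt.algebraMap_ofGaussDatum_red₀ D'.toGaussDatum hbase hfr
    ⟨Algebra.norm F f', h⟩
  rw [RedDatum.toGaussDatum_redF] at h1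
  rw [← h1]
  congr 1
  rw [hh, D'.redF_of_mem hf']
  rfl

omit [FiniteDimensional F F'] [FiniteDimensional Fk Fk'] in
/-- a constant outside the valuation ring has its inverse in the maximal ideal -/
theorem inv_mem_maximalIdeal_of_not_mem {a : L} (ha : a ∉ A) :
    ∃ h : a⁻¹ ∈ A, (⟨a⁻¹, h⟩ : A) ∈ IsLocalRing.maximalIdeal A := by
  have hinv : a⁻¹ ∈ A := (A.mem_or_inv_mem a).resolve_left ha
  have ha0 : a ≠ 0 := fun h => ha (h ▸ A.zero_mem)
  refine ⟨hinv, ?_⟩
  rw [IsLocalRing.mem_maximalIdeal, mem_nonunits_iff]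
  intro hu
  obtain ⟨u, hu⟩ := hu
  apply ha
  have h1 : ((u⁻¹ : Aˣ) : A) * ⟨a⁻¹, hinv⟩ = 1 := by rw [← hu]; simp
  have h2 := congrArg (fun z : A => (z : L)) h1
  simp only [MulMemClass.coe_mul, OneMemClass.coe_one] at h2
  have h3 : (((u⁻¹ : Aˣ) : A) : L) = a := by
    field_simp at h2
    exact h2
  rw [← h3]
  exact ((u⁻¹ : Aˣ) : A).2

/-- **(D1)** well-definedness: two places of `F'` over the same place of `F` reduce to places of
`Fk'` over the same place of `Fk`. -/
theorem restrict_r_eq_of_restrict_eq [Infinite k]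
    [HasPrincipalDivisors L F'] [HasPrincipalDivisors k Fk] [HasPrincipalDivisors k Fk']
    (hNF : Divisor.PushforwardNormFormula L F F')
    (hdegF : ∀ v : Place L F, v.deg = 1)
    (G : GaussDatum A F Fk) (D' : RedDatum A F' Fk')
    (hO : ∀ x : F, algebraMap F F' x ∈ D'.O ↔ x ∈ G.O)
    (hred : ∀ x ∈ G.O, D'.redF (algebraMap F F' x) = algebraMap Fk Fk' (G.redF x))
    (hfr : Module.finrank F F' = Module.finrank Fk Fk')
    (hD' : D'.HasOrthonormalBases) {g' gk : ℕ}
    (hF' : IsCurveOfGenus L F' g') (hFk' : IsCurveOfGenus k Fk' g')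
    (hFk : IsCurveOfGenus k Fk gk)
    {y₀ : F} (hyO : y₀ ∈ G.O) (hnc : ∀ c : k, G.redF y₀ ≠ algebraMap k Fk c)
    (hdeg : Divisor.degree (polesOf (K := L) (algebraMap F F' y₀)) =
      Divisor.degree (polesOf (K := k) (D'.redF (algebraMap F F' y₀))))
    {P'₁ P'₂ : Place L F'} (hP : P'₁.restrict F = P'₂.restrict F) :
    (D'.r P'₁).restrict Fk = (D'.r P'₂).restrict Fk := by
  classical
  by_contra hQ
  have hdegposk' : ∀ Q : Place k Fk', 0 < Q.deg := fun Q => by
    rw [hFk'.deg_eq_one Q]; exact Nat.one_pos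
  -- the function `y'` upstairs
  have hyO' : algebraMap F F' y₀ ∈ D'.O := (hO y₀).2 hyO
  have hy'red : D'.redF (algebraMap F F' y₀) = algebraMap Fk Fk' (G.redF y₀) := hred y₀ hyO
  have hnc' : ∀ c : k, D'.redF (algebraMap F F' y₀) ≠ algebraMap k Fk' c := by
    intro c hc
    rw [hy'red, IsScalarTower.algebraMap_apply k Fk Fk'] at hc
    exact hnc c ((algebraMap Fk Fk').injective hc)
  -- a good constant
  obtain ⟨cbar, hc1, hc2⟩ := exists_const_ord_le_zero (K := k) (D'.redF (algebraMap F F' y₀))
    (D'.r P'₁) (D'.r P'₂)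
  obtain ⟨c₀, rfl⟩ := IsLocalRing.residue_surjective cbar
  set ψ : Fk := G.redF y₀ - algebraMap k Fk (IsLocalRing.residue A c₀) with hψ
  have hψ' : D'.redF (algebraMap F F' y₀) - algebraMap k Fk' (IsLocalRing.residue A c₀) =
      algebraMap Fk Fk' ψ := by
    rw [hψ, map_sub, hy'red, ← IsScalarTower.algebraMap_apply]
  rw [hψ'] at hc1 hc2
  have hψnc : ∀ c : k, ψ ≠ algebraMap k Fk c := by
    intro c hc
    apply hnc (IsLocalRing.residue A c₀ + c)
    rw [map_add, ← hc, hψ]
    ring
  have hψ'nc : ∀ c : k, algebraMap Fk Fk' ψ ≠ algebraMap k Fk' c := by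
    intro c hc
    rw [IsScalarTower.algebraMap_apply k Fk Fk'] at hc
    exact hψnc c ((algebraMap Fk Fk').injective hc)
  set Q₁ : Place k Fk := (D'.r P'₁).restrict Fk with hQ₁
  set Q₂ : Place k Fk := (D'.r P'₂).restrict Fk with hQ₂
  have hψ1 : Q₁.ord ψ ≤ 0 := by
    by_contra h
    push Not at h
    have := (ord_algebraMap_pos_iff (D'.r P'₁) ψ).2 h
    omega
  have hψ2 : Q₂.ord ψ ≤ 0 := by
    by_contra h
    push Not at h
    have := (ord_algebraMap_pos_iff (D'.r P'₂) ψ).2 h
    omega
  have hZ1 : zerosOf (K := k) ψ Q₁ = 0 := by rw [zerosOf_apply]; exact max_eq_right hψ1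
  have hZ2 : zerosOf (K := k) ψ Q₂ = 0 := by rw [zerosOf_apply]; exact max_eq_right hψ2
  have hZdeg : 0 < Divisor.degree (zerosOf (K := k) ψ) :=
    degree_zerosOf_pos_of_nonconst hFk hψnc
  -- the separating function
  set n : ℕ := 2 * gk + 2 * g' + 1 with hn
  obtain ⟨φ, hφ0, hφZ, hφ1, hφ2⟩ := exists_separating hFk hZdeg hQ hZ1 hZ2 (n := n) (by omega)
  -- the divisor upstairs
  set z' : F' := algebraMap F F' y₀ - algebraMap L F' (c₀ : L) with hz'
  have hz'eq : z' = algebraMap F F' (y₀ - algebraMap L F (c₀ : L)) := by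
    rw [hz', map_sub, ← IsScalarTower.algebraMap_apply]
  set E' : Divisor L F' := (n : ℤ) • zerosOf (K := L) z' with hE'
  have hmapZ : Finsupp.mapDomain D'.r (zerosOf (K := L) z') =
      zerosOf (K := k) (algebraMap Fk Fk' ψ) := by
    rw [hz', D'.mapDomain_zerosOf_sub hdegposk' hyO' hnc' hdeg c₀, hψ']
  have hmapE' : Finsupp.mapDomain D'.r E' =
      (n : ℤ) • zerosOf (K := k) (algebraMap Fk Fk' ψ) := by
    rw [hE', Finsupp.mapDomain_smul, hmapZ]
  have hφ'ne : algebraMap Fk Fk' φ ≠ 0 := (map_ne_zero _).2 hφ0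
  have hφ' : algebraMap Fk Fk' φ ∈ riemannRochSpace (Finsupp.mapDomain D'.r E') := by
    rw [hmapE', Cech.mem_rr_of_ne hφ'ne]
    intro Q'
    rw [Finsupp.smul_apply, smul_eq_mul, zerosOf_apply, Q'.ord_restrict, Q'.ord_restrict]
    have he := ramificationIndex_pos_int (F := Fk) Q'
    have h1 := hφZ (Q'.restrict Fk)
    rw [zerosOf_apply] at h1
    rcases le_total ((Q'.restrict Fk).ord ψ) 0 with h | h
    · rw [max_eq_right h] at h1
      rw [max_eq_right (by nlinarith)]
      nlinarith
    · rw [max_eq_left h] at h1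
      rw [max_eq_left (by positivity)]
      nlinarith [mul_le_mul_of_nonneg_left h1 he.le]
  have hdegE' : 2 * (g' : ℤ) - 2 < Divisor.degree E' := by
    have h1 : Divisor.degree (zerosOf (K := L) z') =
        Divisor.degree (zerosOf (K := k) (algebraMap Fk Fk' ψ)) := by
      rw [← hmapZ, D'.degree_mapDomain]
    have h2 : 0 < Divisor.degree (zerosOf (K := k) (algebraMap Fk Fk' ψ)) :=
      degree_zerosOf_pos_of_nonconst hFk' hψ'nc
    rw [hE', map_zsmul, smul_eq_mul, h1]
    have h3 : (n : ℤ) ≤ n * Divisor.degree (zerosOf (K := k) (algebraMap Fk Fk' ψ)) := by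
      nlinarith
    have h4 : (n : ℤ) = 2 * gk + 2 * g' + 1 := by rw [hn]; push_cast; ring
    linarith
  obtain ⟨f', ⟨hf'E, hf'O⟩, hf'red⟩ := RRlat.exists_lift D' hD' hF' hFk' E' hdegE' _ hφ'
  -- the norm
  obtain ⟨hfO, hfred⟩ := norm_mem_and_redF G D' hO hred hfr hf'O
  rw [hf'red, Algebra.norm_algebraMap] at hfred
  set f : F := Algebra.norm F f' with hf
  set d : ℕ := Module.finrank Fk Fk' with hd
  have hdpos : 0 < d := Module.finrank_pos
  -- zeros of `z'` and the two places
  have hnz : ∀ w : Place L F', 0 < w.ord z' → D'.r w ≠ D'.r P'₁ ∧ D'.r w ≠ D'.r P'₂ := by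
    intro w hw
    have h := D'.ord_r_pos_of_ord_pos hdegposk' hyO' hnc' hdeg c₀ hw
    rw [hψ'] at h
    constructor
    · intro heq
      rw [heq] at h
      omega
    · intro heq
      rw [heq] at h
      omega
  -- poles of `f` lie under zeros of `z'`
  have hpole : ∀ v : Place L F, v.ord f < 0 → 0 < v.ord (y₀ - algebraMap L F (c₀ : L)) := by
    intro v hv
    by_contra hle
    push Not at hle
    refine absurd (ord_norm_nonneg hNF v (f' := f') fun w hw => ?_) (not_le.2 hv)
    have h0' : w.ord z' ≤ 0 := by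
      by_contra hpos
      push Not at hpos
      rw [hz'eq] at hpos
      have := (ord_algebraMap_pos_iff w _).1 hpos
      rw [hw] at this
      omega
    have h1 : E' w = 0 := by
      rw [hE', Finsupp.smul_apply, zerosOf_apply, max_eq_right h0', smul_zero]
    rcases Cech.mem_rr_iff.1 hf'E w with h0 | h0
    · rw [h0]; simp
    · rw [h1] at h0
      omega
  -- the place `P` downstairs
  set P : Place L F := P'₁.restrict F with hPdef
  have hP2 : P'₂.restrict F = P := hP.symm
  have hPnz : P.ord (y₀ - algebraMap L F (c₀ : L)) ≤ 0 := by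
    by_contra hpos
    push Not at hpos
    have h1 : 0 < P'₁.ord z' := by
      rw [hz'eq]
      exact (ord_algebraMap_pos_iff P'₁ _).2 hpos
    exact (hnz P'₁ h1).1 rfl
  have hfP : 0 ≤ P.ord f := by
    by_contra hneg
    push Not at hneg
    have := hpole P hneg
    omega
  obtain ⟨a, ha⟩ := exists_value P (hdegF P) hfP
  -- the core: `u f - b` with `b = u a`
  have core : ∀ (u b : A), (u : L) ≠ 0 → (b : L) = (u : L) * a →
      G.redF (algebraMap L F (u : L) * f - algebraMap L F (b : L)) ≠ 0 →
      0 < Q₁.ord (G.redF (algebraMap L F (u : L) * f - algebraMap L F (b : L))) ∧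
      0 < Q₂.ord (G.redF (algebraMap L F (u : L) * f - algebraMap L F (b : L))) := by
    intro u b hu hb hne
    set h₀ : F := algebraMap L F (u : L) * f - algebraMap L F (b : L) with hh₀
    have hh₀O : h₀ ∈ G.O := G.O.sub_mem (G.smul_mem u hfO) (G.algebraMap_mem b)
    have hh₀eq : h₀ = algebraMap L F (u : L) * (f - algebraMap L F a) := by
      rw [hh₀, hb, map_mul]
      ring
    have hh₀0 : h₀ ≠ 0 := by
      intro h
      rw [h] at hne
      exact hne G.redF_zero
    have hh₀P : 0 < P.ord h₀ := by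
      rcases ha with ha | ha
      · exact absurd (by rw [hh₀eq, ha, mul_zero]) hh₀0
      · have hfa : f - algebraMap L F a ≠ 0 := by
          intro h
          rw [h] at ha
          simp at ha
        rw [hh₀eq, P.ord_mul ((map_ne_zero _).2 hu) hfa, Cech.ord_const, zero_add]
        exact ha
    have hredh : D'.redF (algebraMap F F' h₀) = algebraMap Fk Fk' (G.redF h₀) := hred h₀ hh₀O
    have hne' : D'.redF (algebraMap F F' h₀) ≠ 0 := by
      rw [hredh]
      exact (map_ne_zero _).2 hne
    have hpoles : ∀ w : Place L F', w.ord (algebraMap F F' h₀) < 0 →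
        D'.r w ≠ D'.r P'₁ ∧ D'.r w ≠ D'.r P'₂ := by
      intro w hw
      have h1 : (w.restrict F).ord h₀ < 0 := (ord_algebraMap_neg_iff w h₀).1 hw
      have h2 : (w.restrict F).ord f < 0 := by
        by_contra hge
        push Not at hge
        have hfm : f ∈ (w.restrict F).toValuationSubring :=
          (FF.mem_iff_ord_nonneg _ f).2 hge
        have hm : h₀ ∈ (w.restrict F).toValuationSubring :=
          sub_mem (mul_mem ((w.restrict F).algebraMap_mem' _) hfm)
            ((w.restrict F).algebraMap_mem' _)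
        have := (FF.mem_iff_ord_nonneg _ h₀).1 hm
        omega
      have h3 := hpole _ h2
      have h4 : 0 < w.ord z' := by
        rw [hz'eq]
        exact (ord_algebraMap_pos_iff w _).2 h3
      exact hnz w h4
    have hpos1 : 0 < P'₁.ord (algebraMap F F' h₀) := (ord_algebraMap_pos_iff P'₁ h₀).2 hh₀P
    have hpos2 : 0 < P'₂.ord (algebraMap F F' h₀) :=
      (ord_algebraMap_pos_iff P'₂ h₀).2 (by rw [hP2]; exact hh₀P)
    have r1 := ord_r_pos_of_no_pole D' hne' hpos1 (fun w hw => (hpoles w hw).1)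
    have r2 := ord_r_pos_of_no_pole D' hne' hpos2 (fun w hw => (hpoles w hw).2)
    rw [hredh] at r1 r2
    exact ⟨(ord_algebraMap_pos_iff _ _).1 r1, (ord_algebraMap_pos_iff _ _).1 r2⟩
  -- the two cases
  by_cases haA : a ∈ A
  · have hcore := core 1 ⟨a, haA⟩ (by simp) (by simp)
    have hredh : G.redF (algebraMap L F ((1 : A) : L) * f - algebraMap L F ((⟨a, haA⟩ : A) : L)) =
        φ ^ d - algebraMap k Fk (IsLocalRing.residue A ⟨a, haA⟩) := by
      rw [G.redF_sub (G.smul_mem 1 hfO) (G.algebraMap_mem _), G.redF_smul 1 hfO, map_one,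
        one_smul, hfred, G.redF_algebraMap]
    rw [hredh] at hcore
    have hφd1 : 1 ≤ Q₁.ord (φ ^ d) := by
      rw [Cech.ord_pow]
      have : (1 : ℤ) ≤ d := by exact_mod_cast hdpos
      nlinarith
    have hφd2 : Q₂.ord (φ ^ d) = 0 := by rw [Cech.ord_pow, hφ2, mul_zero]
    by_cases h0 : φ ^ d - algebraMap k Fk (IsLocalRing.residue A ⟨a, haA⟩) = 0
    · have h1 : φ ^ d = algebraMap k Fk (IsLocalRing.residue A ⟨a, haA⟩) := sub_eq_zero.1 h0
      rw [h1, Cech.ord_const] at hφd1
      omega
    · obtain ⟨c1, c2⟩ := hcore h0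
      have h3 := Cech.ord_add_ge Q₁ (n := 1) (Or.inr hφd1)
        (Or.inr (by rw [Cech.ord_neg]; omega :
          (1 : ℤ) ≤ Q₁.ord (-(φ ^ d - algebraMap k Fk (IsLocalRing.residue A ⟨a, haA⟩)))))
      have heq : φ ^ d + -(φ ^ d - algebraMap k Fk (IsLocalRing.residue A ⟨a, haA⟩)) =
          algebraMap k Fk (IsLocalRing.residue A ⟨a, haA⟩) := by ring
      rw [heq] at h3
      rcases h3 with h3 | h3
      · rw [h3, sub_zero] at c2
        omega
      · rw [Cech.ord_const] at h3
        omega
  · obtain ⟨hinv, hmax⟩ := inv_mem_maximalIdeal_of_not_mem haA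
    have ha0 : a ≠ 0 := fun h => haA (h ▸ A.zero_mem)
    have hcore := core ⟨a⁻¹, hinv⟩ 1 (inv_ne_zero ha0) (by simp [ha0])
    have hredh : G.redF (algebraMap L F ((⟨a⁻¹, hinv⟩ : A) : L) * f -
        algebraMap L F ((1 : A) : L)) = -1 := by
      rw [G.redF_sub (G.smul_mem ⟨a⁻¹, hinv⟩ hfO) (G.algebraMap_mem _),
        G.redF_smul ⟨a⁻¹, hinv⟩ hfO, (IsLocalRing.residue_eq_zero_iff _).mpr hmax, zero_smul,
        G.redF_algebraMap, map_one, map_one, zero_sub]
    rw [hredh] at hcore
    obtain ⟨c1, -⟩ := hcore (by simp)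
    rw [Cech.ord_neg, Place.ord_one] at c1
    omega

/-- **(D2)** conservation downstairs: any map `r` compatible with `r'` along restriction of places
satisfies `r_* div y = div ȳ`. -/
theorem mapDomain_div_of_tower
    [HasPrincipalDivisors L F] [HasPrincipalDivisors L F'] [HasPrincipalDivisors k Fk]
    [HasPrincipalDivisors k Fk'] [FundamentalIdentity L F F'] [FundamentalIdentity k Fk Fk']
    (hdegF : ∀ v : Place L F, v.deg = 1) (hdegF' : ∀ w : Place L F', w.deg = 1)
    (hdegFk : ∀ v : Place k Fk, v.deg = 1) (hdegFk' : ∀ w : Place k Fk', w.deg = 1)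
    (G : GaussDatum A F Fk) (D' : RedDatum A F' Fk')
    (hred : ∀ x ∈ G.O, D'.redF (algebraMap F F' x) = algebraMap Fk Fk' (G.redF x))
    (hfr : Module.finrank F F' = Module.finrank Fk Fk')
    (r : Place L F → Place k Fk)
    (hr : ∀ P' : Place L F', r (P'.restrict F) = (D'.r P').restrict Fk)
    (y : G.O) (hy : G.red y ≠ 0) (E : Divisor L F) (hE : ∀ P, E P = P.ord (y : F))
    (Q : Place k Fk) : Finsupp.mapDomain r E Q = Q.ord (G.red y) := by
  have hyred : G.redF (y : F) = G.red y := by rw [G.redF_of_mem y.2]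
  have hne' : D'.redF (algebraMap F F' (y : F)) ≠ 0 := by
    rw [hred _ y.2, hyred]
    exact (map_ne_zero _).2 hy
  have hpb : Divisor.pullback F' E = divOf (K := L) (algebraMap F F' (y : F)) := by
    ext w
    rw [Divisor.pullback_apply_eq_ord hE w, divOf_apply']
  have hpbk : Divisor.pullback Fk' (divOf (K := k) (G.red y)) =
      divOf (K := k) (algebraMap Fk Fk' (G.red y)) := by
    ext w
    rw [Divisor.pullback_apply_eq_ord (fun v => divOf_apply' _ v) w, divOf_apply']
  have hcomp : r ∘ (fun w : Place L F' => w.restrict F) =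
      (fun w : Place k Fk' => w.restrict Fk) ∘ D'.r := funext hr
  have key : (Module.finrank F F' : ℤ) • Finsupp.mapDomain r E =
      (Module.finrank Fk Fk' : ℤ) • divOf (K := k) (G.red y) := by
    rw [← Finsupp.mapDomain_smul, ← mapRestrict_pullback hdegF hdegF' E, mapRestrict_eq_mapDomain,
      ← Finsupp.mapDomain_comp, hpb, hcomp, Finsupp.mapDomain_comp, D'.mapDomain_divOf hne',
      hred _ y.2, hyred, ← hpbk, ← mapRestrict_eq_mapDomain, mapRestrict_pullback hdegFk hdegFk']
  have hpt := congrArg (fun E => E Q) key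
  simp only [Finsupp.smul_apply, smul_eq_mul, divOf_apply'] at hpt
  rw [hfr] at hpt
  have hd : (0 : ℤ) < (Module.finrank Fk Fk' : ℤ) := by exact_mod_cast Module.finrank_pos
  exact mul_left_cancel₀ hd.ne' hpt

/-- **Descent of the reduction datum.**  From a `RedDatum` on `F' / Fk'` with orthonormal bases
and equal genus, compatible with the `GaussDatum` `G` on `F / Fk`, one gets a `RedDatum` on
`F / Fk` extending `G`, whose place map is compatible with restriction of places. -/
theorem exists_redDatum_of_tower [Infinite k]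
    [HasPrincipalDivisors L F] [HasPrincipalDivisors L F'] [HasPrincipalDivisors k Fk]
    [HasPrincipalDivisors k Fk'] [FundamentalIdentity L F F'] [FundamentalIdentity k Fk Fk']
    (hNF : Divisor.PushforwardNormFormula L F F')
    (hdegF : ∀ v : Place L F, v.deg = 1)
    (G : GaussDatum A F Fk) (D' : RedDatum A F' Fk')
    (hO : ∀ x : F, algebraMap F F' x ∈ D'.O ↔ x ∈ G.O)
    (hred : ∀ x ∈ G.O, D'.redF (algebraMap F F' x) = algebraMap Fk Fk' (G.redF x))
    (hfr : Module.finrank F F' = Module.finrank Fk Fk')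
    (hD' : D'.HasOrthonormalBases) {g' gk : ℕ}
    (hF' : IsCurveOfGenus L F' g') (hFk' : IsCurveOfGenus k Fk' g')
    (hFk : IsCurveOfGenus k Fk gk)
    {y₀ : F} (hyO : y₀ ∈ G.O) (hnc : ∀ c : k, G.redF y₀ ≠ algebraMap k Fk c)
    (hdeg : Divisor.degree (polesOf (K := L) (algebraMap F F' y₀)) =
      Divisor.degree (polesOf (K := k) (D'.redF (algebraMap F F' y₀)))) :
    ∃ D : RedDatum A F Fk, D.toGaussDatum = G ∧
      ∀ P' : Place L F', D.r (P'.restrict F) = (D'.r P').restrict Fk := by
  classical
  have hex : ∀ P : Place L F, ∃ P' : Place L F', P'.restrict F = P :=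
    exists_restrict_eq hdegF hF'.deg_eq_one
  choose lift hlift using hex
  have hrP : ∀ P' : Place L F',
      (D'.r (lift (P'.restrict F))).restrict Fk = (D'.r P').restrict Fk := fun P' =>
    restrict_r_eq_of_restrict_eq hNF hdegF G D' hO hred hfr hD' hF' hFk' hFk hyO hnc hdeg
      (hlift (P'.restrict F))
  refine ⟨{ O := G.O
            algebraMap_mem_iff := G.algebraMap_mem_iff
            red := G.red
            red_surjective := G.red_surjective
            red_algebraMap := G.red_algebraMap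
            exists_const_mul_isUnit := G.exists_const_mul_isUnit
            r := fun P => (D'.r (lift P)).restrict Fk
            deg_r := fun P => by rw [hFk.deg_eq_one, hdegF]
            mapDomain_div := fun y hy E hE Q =>
              mapDomain_div_of_tower hdegF hF'.deg_eq_one hFk.deg_eq_one hFk'.deg_eq_one G D'
                hred hfr (fun P => (D'.r (lift P)).restrict Fk) hrP y hy E hE Q }, rfl, hrP⟩

end Descent

end Fermat.Agent.S37lib.B3
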