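/-
S37lib / B3 / DescentTower  (helper1)

Drop-in replacement for helper9's `B3/Stub_DescentGuess.lean`: the abstract descent `N' → N` with
EXACTLY the guessed signature (`[CharZero L]`, `Transcendental` hypotheses), proved from
`B3.exists_redDatum_of_tower` (`B3/Descent.lean`) and helper6's `Tower.pushforwardNormFormula`.
-/
import Mathlib
import Fermat.Agent.S37lib.B3.Descent
import Fermat.Agent.S37lib.Tower.NormFormula

set_option autoImplicit false
set_option linter.unusedSectionVars false
set_option linter.unusedVariables false
set_option linter.style.haveILetI false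

noncomputable section

namespace Fermat.Agent.S37lib.B3

open AlgebraicCurve IntermediateField Module Fermat.Agent.S18lib

variable {L : Type*} [Field L] {A : ValuationSubring L}
variable {F : Type*} [Field F] [Algebra L F]
variable {Fk : Type*} [Field Fk] [Algebra (IsLocalRing.ResidueField A) Fk]
variable {F' : Type*} [Field F'] [Algebra L F']
variable {Fk' : Type*} [Field Fk'] [Algebra (IsLocalRing.ResidueField A) Fk']
variable [Algebra F F'] [IsScalarTower L F F'] [Algebra Fk Fk']
  [IsScalarTower (IsLocalRing.ResidueField A) Fk Fk']
  [FiniteDimensional F F'] [FiniteDimensional Fk Fk']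

local notation "k" => IsLocalRing.ResidueField A

/-- **descent `N' → N`** (abstract), in the shape used by the instance layer `B3/Inst.lean`. -/
theorem exists_redDatum_of_descent [CharZero L] [Infinite k]
    [HasPrincipalDivisors L F] [HasPrincipalDivisors k Fk]
    [HasPrincipalDivisors L F'] [HasPrincipalDivisors k Fk']
    [FundamentalIdentity L F F'] [FundamentalIdentity k Fk Fk']
    (G : GaussDatum A F Fk) (D' : RedDatum A F' Fk') (hOB : D'.HasOrthonormalBases)
    (hO : ∀ x : F, algebraMap F F' x ∈ D'.O ↔ x ∈ G.O)
    (hred : ∀ x : F, x ∈ G.O → D'.redF (algebraMap F F' x) = algebraMap Fk Fk' (G.redF x))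
    (hdeg' : finrank F F' = finrank Fk Fk')
    {g gk g' : ℕ} (hF : IsCurveOfGenus L F g) (hFk : IsCurveOfGenus k Fk gk)
    (hF' : IsCurveOfGenus L F' g') (hFk' : IsCurveOfGenus k Fk' g')
    (y : F) (hyO : y ∈ G.O) (hy : Transcendental L y) (hyk : Transcendental k (G.redF y))
    (hdeg : Divisor.degree (polesOf (K := L) (algebraMap F F' y)) =
      Divisor.degree (polesOf (K := k) (D'.redF (algebraMap F F' y)))) :
    ∃ D : RedDatum A F Fk, D.toGaussDatum = G ∧
      ∀ P' : Place L F', D.r (P'.restrict F) = (D'.r P').restrict Fk := by
  haveI : CharZero F := charZero_of_injective_algebraMap (algebraMap L F).injective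
  haveI : Algebra.IsSeparable F F' := inferInstance
  have hNF : Divisor.PushforwardNormFormula L F F' :=
    Tower.pushforwardNormFormula hF'.deg_eq_one
  exact exists_redDatum_of_tower hNF hF.deg_eq_one G D' hO hred hdeg' hOB hF' hFk' hFk hyO
    (fun c hc => hyk (hc ▸ isAlgebraic_algebraMap c)) hdeg

end Fermat.Agent.S37lib.B3
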