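/-
S37lib / B3 / PrincipalGen  (helper1)

`PrincipalGeneratedByIntegral A (residue A) N` holds UNCONDITIONALLY for every level `N` prime to
`ℓ` (second half of `ReductionInputsModL A N`): by helper7's unconditional decomposition
`V.exists_decomp_U` every nonzero `f ∈ FBar N` is `c · a / b` with `c ∈ Q̄ˣ` and `a, b` integral
modular functions with nonzero reduction, so `div f = div a - div b`.
-/
import Fermat.Agent.S18lib.V.GaussU.Decomp
import Fermat.Agent.S18lib.V.Decomp
import Fermat.Agent.S18lib.Setup.DatumDiv

set_option autoImplicit false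
set_option linter.unusedSectionVars false

noncomputable section

namespace Fermat.Agent.S37lib.B3

open AlgebraicCurve ModularCurve HahnSeries IntermediateField
open Fermat.Agent.S18lib

local notation "Qb" => AlgebraicClosure ℚ

variable (N : ℕ) [NeZero N] {ℓ : ℕ} [Fact ℓ.Prime] (A : ValuationSubring (AlgebraicClosure ℚ))

/-- the divisor of an integral modular function with nonzero reduction is an integral principal
divisor -/
theorem mem_integralPrincipalDivisors_of_elemL {a : V.IntRing N A} (ha : V.elemK a ≠ 0)
    {D : Divisor Qb (FBar N)} (hD : ∀ P, D P = P.ord (V.elemL a)) :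
    D ∈ integralPrincipalDivisors A (IsLocalRing.residue A) N := by
  refine ⟨a.1, a.2.1, a.2.2, ?_, hD⟩
  intro h0
  exact ha (Subtype.ext h0)

/-- **the principal divisors of `FBar N` are generated by the divisors of integral modular
functions with nonzero reduction, unconditionally** (`ℓ ∤ N`). -/
theorem principalGeneratedByIntegral_U (hℓN : ¬ ℓ ∣ N) (hA : A.LiesOverPrime ℓ) :
    PrincipalGeneratedByIntegral A (IsLocalRing.residue A) N := by
  intro D hD
  obtain ⟨f, hf, hDf⟩ := hD
  obtain ⟨c, a, b, hc, ha, hb, hfab⟩ := V.exists_decomp_U N ℓ A hℓN hA hf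
  have haL := V.elemL_ne_zero_of_elemK_ne_zero ha
  have hbL := V.elemL_ne_zero_of_elemK_ne_zero hb
  obtain ⟨Da, hDa, -⟩ := HasPrincipalDivisors.exists_divisor (K := Qb) (V.elemL a) haL
  obtain ⟨Db, hDb, -⟩ := HasPrincipalDivisors.exists_divisor (K := Qb) (V.elemL b) hbL
  have hDeq : D = Da - Db := by
    ext P
    rw [Finsupp.sub_apply, hDf P, hDa P, hDb P]
    have h1 := congrArg P.ord hfab
    rw [P.ord_mul hf hbL, P.ord_mul ((map_ne_zero _).2 hc) haL,
      ord_algebraMap_eq_zero P hc, zero_add] at h1
    omega
  rw [hDeq]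
  exact AddSubgroup.sub_mem _
    (AddSubgroup.subset_closure (mem_integralPrincipalDivisors_of_elemL N A ha hDa))
    (AddSubgroup.subset_closure (mem_integralPrincipalDivisors_of_elemL N A hb hDb))

end Fermat.Agent.S37lib.B3
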